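/-
Evaluation of convergent power series over a complete nonarchimedean field.
-/
import Mathlib.Analysis.Normed.Group.Ultra
import Mathlib.Analysis.Normed.Ring.Ultra
import Mathlib.Analysis.SpecificLimits.Normed
import Mathlib.RingTheory.PowerSeries.Basic
import Mathlib.Topology.Algebra.InfiniteSum.Nonarchimedean
import Mathlib.Topology.Algebra.InfiniteSum.Ring

set_option autoImplicit false

noncomputable section

namespace Fermat.Agent.Tate

variable {K : Type*} [NormedField K] [IsUltrametricDist K]

theorem nonarchimedeanRing_of_ultrametric : NonarchimedeanRing K :=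
  { is_nonarchimedean := NonarchimedeanAddGroup.is_nonarchimedean }

theorem summable_cauchy {a b : ℕ → K} (ha : Summable a) (hb : Summable b) :
    Summable (fun n => ∑ kl ∈ Finset.antidiagonal n, a kl.1 * b kl.2) := by
  have : NonarchimedeanRing K := nonarchimedeanRing_of_ultrametric
  exact summable_sum_mul_antidiagonal_of_summable_mul (Summable.mul_of_nonarchimedean ha hb)

theorem tsum_cauchy {a b : ℕ → K} (ha : Summable a) (hb : Summable b) :
    (∑' n, a n) * (∑' n, b n) = ∑' n, ∑ kl ∈ Finset.antidiagonal n, a kl.1 * b kl.2 := by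
  have : NonarchimedeanRing K := nonarchimedeanRing_of_ultrametric
  exact Summable.tsum_mul_tsum_eq_tsum_sum_antidiagonal ha hb
    (Summable.mul_of_nonarchimedean ha hb)

theorem coeff_mul_mul_pow (f g : PowerSeries K) (x : K) (n : ℕ) :
    PowerSeries.coeff n (f * g) * x ^ n =
      ∑ kl ∈ Finset.antidiagonal n,
        (PowerSeries.coeff kl.1 f * x ^ kl.1) * (PowerSeries.coeff kl.2 g * x ^ kl.2) := by
  rw [PowerSeries.coeff_mul, Finset.sum_mul]
  refine Finset.sum_congr rfl fun kl hkl => ?_
  rw [← Finset.mem_antidiagonal.1 hkl, pow_add]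
  ring

/-- Power series converging at `x`. -/
def convSeries (x : K) : Subring (PowerSeries K) where
  carrier := {f | Summable fun n => PowerSeries.coeff n f * x ^ n}
  zero_mem' := by simp
  one_mem' := by
    refine summable_of_ne_finset_zero (s := {0}) fun n hn => ?_
    rw [PowerSeries.coeff_one, if_neg (by simpa using hn), zero_mul]
  add_mem' {f g} hf hg := by
    show Summable _
    simpa [add_mul] using Summable.add hf hg
  neg_mem' {f} hf := by
    show Summable _
    simpa using Summable.neg hf
  mul_mem' {f g} hf hg :=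
    (summable_cauchy hf hg).congr fun n => (coeff_mul_mul_pow f g x n).symm

theorem mem_convSeries {x : K} {f : PowerSeries K} :
    f ∈ convSeries x ↔ Summable fun n => PowerSeries.coeff n f * x ^ n := Iff.rfl

theorem C_mem_convSeries (x c : K) : PowerSeries.C c ∈ convSeries x := by
  refine summable_of_ne_finset_zero (s := {0}) fun n hn => ?_
  rw [PowerSeries.coeff_C, if_neg (by simpa using hn), zero_mul]

/-- The value of a convergent series. -/
def qEval (x : K) : convSeries x →+* K where
  toFun f := ∑' n, PowerSeries.coeff n (f : PowerSeries K) * x ^ n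
  map_one' := by
    rw [tsum_eq_single 0]
    · simp
    · intro n hn
      simp [PowerSeries.coeff_one, hn]
  map_mul' f g :=
    (tsum_congr fun n => coeff_mul_mul_pow (f : PowerSeries K) (g : PowerSeries K) x n).trans
      (tsum_cauchy f.2 g.2).symm
  map_zero' := by simp
  map_add' f g := by
    simp only [Subring.coe_add, map_add, add_mul]
    exact Summable.tsum_add f.2 g.2

theorem qEval_apply {x : K} (f : convSeries x) :
    qEval x f = ∑' n, PowerSeries.coeff n (f : PowerSeries K) * x ^ n := rfl

theorem qEval_C (x c : K) : qEval x ⟨PowerSeries.C c, C_mem_convSeries x c⟩ = c := by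
  rw [qEval_apply, tsum_eq_single 0]
  · simp
  · intro n hn
    simp [PowerSeries.coeff_C, hn]

theorem summable_of_geometric [CompleteSpace K] {a : ℕ → K} {C r : ℝ} (hr0 : 0 ≤ r) (hr1 : r < 1)
    (h : ∀ n, ‖a n‖ ≤ C * r ^ n) : Summable a :=
  Summable.of_norm_bounded ((summable_geometric_of_lt_one hr0 hr1).mul_left C) h

theorem mem_convSeries_of_bound [CompleteSpace K] {x : K} {f : PowerSeries K} {C r : ℝ}
    (hr0 : 0 ≤ r) (hr1 : r < 1) (h : ∀ n, ‖PowerSeries.coeff n f * x ^ n‖ ≤ C * r ^ n) :
    f ∈ convSeries x :=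
  summable_of_geometric hr0 hr1 h

theorem norm_qEval_le {x : K} (f : convSeries x) {C : ℝ} (hC : 0 ≤ C)
    (h : ∀ n, ‖PowerSeries.coeff n (f : PowerSeries K) * x ^ n‖ ≤ C) : ‖qEval x f‖ ≤ C :=
  IsUltrametricDist.norm_tsum_le_of_forall_le_of_nonneg hC h

/-- A series with integer coefficients, mapped to `K`. -/
def intSeries : PowerSeries ℤ →+* PowerSeries K := PowerSeries.map (Int.castRingHom K)

theorem intSeries_mem [CompleteSpace K] {x : K} (hx : ‖x‖ < 1) (f : PowerSeries ℤ) :
    intSeries f ∈ convSeries x := by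
  refine mem_convSeries_of_bound (C := 1) (norm_nonneg x) hx fun n => ?_
  rw [intSeries, PowerSeries.coeff_map, eq_intCast, norm_mul, norm_pow]
  exact mul_le_mul_of_nonneg_right (IsUltrametricDist.norm_intCast_le_one K _)
    (pow_nonneg (norm_nonneg x) n)

/-- The value at `x` of a series with integer coefficients. -/
def intEval [CompleteSpace K] {x : K} (hx : ‖x‖ < 1) : PowerSeries ℤ →+* K :=
  (qEval x).comp ((intSeries (K := K)).codRestrict (convSeries x) (intSeries_mem hx))

theorem intEval_apply [CompleteSpace K] {x : K} (hx : ‖x‖ < 1) (f : PowerSeries ℤ) :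
    intEval hx f = ∑' n, ((PowerSeries.coeff n f : ℤ) : K) * x ^ n := by
  simp only [intEval, RingHom.comp_apply, qEval_apply]
  refine tsum_congr fun n => ?_
  simp [intSeries]

theorem qEval_intSeries [CompleteSpace K] {x : K} (hx : ‖x‖ < 1) (f : PowerSeries ℤ) :
    qEval x ⟨intSeries f, intSeries_mem hx f⟩ = intEval hx f := rfl

theorem intEval_X [CompleteSpace K] {x : K} (hx : ‖x‖ < 1) : intEval hx PowerSeries.X = x := by
  rw [intEval_apply, tsum_eq_single 1]
  · simp
  · intro n hn
    simp [PowerSeries.coeff_X, hn]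

theorem norm_intEval_sub_le [CompleteSpace K] {x : K} (hx : ‖x‖ < 1) (f : PowerSeries ℤ)
    {N : ℕ} (hf : ∀ n < N, PowerSeries.coeff n f = 0) : ‖intEval hx f‖ ≤ ‖x‖ ^ N := by
  rw [intEval_apply]
  refine IsUltrametricDist.norm_tsum_le_of_forall_le_of_nonneg (by positivity) fun n => ?_
  rcases lt_or_ge n N with h | h
  · rw [hf n h]
    simp
  · rw [norm_mul, norm_pow]
    exact (mul_le_of_le_one_left (by positivity) (IsUltrametricDist.norm_intCast_le_one K _)).trans
      (pow_le_pow_of_le_one (norm_nonneg x) hx.le h)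

end Fermat.Agent.Tate
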