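/-
The values of Tate's series at points of the annulus `|q| < |u| < 1 / |q|`, and the identities
between them.
-/
import Fermat.Agent.Tate.Eval.ConvSeries
import Fermat.Agent.Tate.Formal.Addition

set_option autoImplicit false

noncomputable section

namespace Fermat.Agent.Tate

open AddMonoidAlgebra

variable {K : Type*} [NormedField K] [IsUltrametricDist K] [CompleteSpace K]

/-! ### Evaluation through a character -/

section generic

variable {L : Type*} [CommRing L]

/-- The series over `L` which converge at `x` after applying `χ`. -/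
def convOf (χ : L →+* K) (x : K) : Subring (PowerSeries L) :=
  (convSeries x).comap (PowerSeries.map χ)

/-- The value at `x`. -/
def valOf (χ : L →+* K) (x : K) : convOf χ x →+* K :=
  (qEval x).comp (((PowerSeries.map χ).comp (convOf χ x).subtype).codRestrict (convSeries x)
    fun f => f.2)

theorem valOf_apply (χ : L →+* K) (x : K) (f : convOf χ x) :
    valOf χ x f = ∑' n, χ (PowerSeries.coeff n (f : PowerSeries L)) * x ^ n := by
  simp only [valOf, RingHom.comp_apply, qEval_apply]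
  rfl

theorem C_mem_convOf (χ : L →+* K) (x : K) (c : L) : PowerSeries.C c ∈ convOf χ x := by
  show PowerSeries.map χ (PowerSeries.C c) ∈ convSeries x
  rw [PowerSeries.map_C]
  exact C_mem_convSeries x (χ c)

theorem valOf_C (χ : L →+* K) (x : K) (c : L) :
    valOf χ x ⟨PowerSeries.C c, C_mem_convOf χ x c⟩ = χ c := by
  rw [valOf_apply, tsum_eq_single 0]
  · simp
  · intro n hn
    simp [PowerSeries.coeff_C, hn]

theorem map_intCast_mem_convOf (χ : L →+* K) {x : K} (hx : ‖x‖ < 1) (f : PowerSeries ℤ) :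
    PowerSeries.map (Int.castRingHom L) f ∈ convOf χ x := by
  show PowerSeries.map χ _ ∈ convSeries x
  have h : PowerSeries.map χ (PowerSeries.map (Int.castRingHom L) f) = intSeries f := by
    ext n
    simp [intSeries]
  rw [h]
  exact intSeries_mem hx f

theorem valOf_map_intCast (χ : L →+* K) {x : K} (hx : ‖x‖ < 1) (f : PowerSeries ℤ) :
    valOf χ x ⟨_, map_intCast_mem_convOf χ hx f⟩ = intEval hx f := by
  rw [valOf_apply, intEval_apply]
  exact tsum_congr fun n => by simp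

theorem mem_convOf_of_bound (χ : L →+* K) {x : K} {f : PowerSeries L} {r : ℝ}
    (hr0 : 0 ≤ r) (hr1 : r < 1)
    (h : ∀ n, ‖χ (PowerSeries.coeff n f) * x ^ n‖ ≤ r ^ n) : f ∈ convOf χ x := by
  refine mem_convSeries_of_bound (C := 1) hr0 hr1 fun n => ?_
  rw [PowerSeries.coeff_map, one_mul]
  exact h n

end generic

/-! ### Characters -/

/-- Evaluation of Laurent polynomials at `u`. -/
def evChar (u : Kˣ) : LP →+* K :=
  AddMonoidAlgebra.liftNCRingHom (Int.castRingHom K)
    ((Units.coeHom K).comp (zpowersHom Kˣ u)) (fun _ _ => mul_comm _ _)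

theorem evChar_single (u : Kˣ) (n c : ℤ) :
    evChar u (single n c) = (c : K) * (u : K) ^ n := by
  change liftNC _ _ (single n c) = _
  rw [liftNC_single]
  simp

theorem evChar_um (u : Kˣ) (n : ℤ) : evChar u (um n) = (u : K) ^ n := by
  rw [um, evChar_single]
  simp

/-- Evaluation of Laurent polynomials in two variables. -/
def evChar2 (u v : Kˣ) : LP2 →+* K :=
  AddMonoidAlgebra.liftNCRingHom (Int.castRingHom K)
    ((Units.coeHom K).comp
      { toFun := fun n => u ^ (Multiplicative.toAdd n).1 * v ^ (Multiplicative.toAdd n).2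
        map_one' := by simp
        map_mul' := fun m n => by
          simp only [toAdd_mul, Prod.fst_add, Prod.snd_add, zpow_add]
          exact mul_mul_mul_comm _ _ _ _ })
    (fun _ _ => mul_comm _ _)

theorem evChar2_single (u v : Kˣ) (n : ℤ × ℤ) (c : ℤ) :
    evChar2 u v (single n c) = (c : K) * ((u : K) ^ n.1 * (v : K) ^ n.2) := by
  change liftNC _ _ (single n c) = _
  rw [liftNC_single]
  simp

theorem evChar2_comp (u v : Kˣ) (g : ℤ →+ ℤ × ℤ) :
    (evChar2 u v).comp (mapDomainRingHom ℤ g) = evChar (u ^ (g 1).1 * v ^ (g 1).2) := by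
  refine RingHom.ext fun f => ?_
  induction f using AddMonoidAlgebra.induction_linear with
  | zero => simp only [map_zero]
  | add a b ha hb => simp only [map_add, ha, hb]
  | single n c =>
    have hn : g n = n • g 1 := by rw [← map_zsmul, smul_eq_mul, mul_one]
    rw [RingHom.comp_apply, mapDomainRingHom_apply, mapDomain_single, evChar2_single,
      evChar_single]
    simp only [hn, Prod.smul_fst, Prod.smul_snd, smul_eq_mul, Units.val_mul, Units.val_zpow_eq_zpow_val,
      mul_zpow, ← zpow_mul, mul_comm (g 1).1 n, mul_comm (g 1).2 n]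

/-- The region where the series converge. -/
structure InAnn (q : K) (u : Kˣ) : Prop where
  lower : ‖q‖ < ‖(u : K)‖
  upper : ‖q‖ * ‖(u : K)‖ < 1

/-- The convergence rate. -/
def annRate (q : K) (u : Kˣ) : ℝ := ‖q‖ * max ‖(u : K)‖ ‖(u : K)‖⁻¹

variable {q : K} {u v : Kˣ}

theorem annRate_nonneg : 0 ≤ annRate q u := by
  unfold annRate
  positivity

theorem InAnn.rate_lt_one (h : InAnn q u) : annRate q u < 1 := by
  have hu : 0 < ‖(u : K)‖ := norm_pos_iff.2 u.ne_zero
  rw [annRate, mul_max_of_nonneg _ _ (norm_nonneg q)]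
  exact max_lt h.upper (by rw [← div_eq_mul_inv, div_lt_one hu]; exact h.lower)

theorem InAnn.norm_q_lt_one (h : InAnn q u) : ‖q‖ < 1 := by
  rcases le_or_gt 1 ‖(u : K)‖ with h' | h'
  · exact lt_of_le_of_lt (le_mul_of_one_le_right (norm_nonneg q) h') h.upper
  · exact h.lower.trans h'

theorem InAnn.inv (h : InAnn q u) : InAnn q u⁻¹ := by
  have hu : 0 < ‖(u : K)‖ := norm_pos_iff.2 u.ne_zero
  refine ⟨?_, ?_⟩
  · rw [Units.val_inv_eq_inv_val, norm_inv, ← one_div, lt_div_iff₀ hu]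
    exact h.upper
  · rw [Units.val_inv_eq_inv_val, norm_inv, ← div_eq_mul_inv, div_lt_one hu]
    exact h.lower

theorem one_le_max_norm (u : Kˣ) : 1 ≤ max ‖(u : K)‖ ‖(u : K)‖⁻¹ := by
  rcases le_or_gt 1 ‖(u : K)‖ with h | h
  · exact le_max_of_le_left h
  · exact le_max_of_le_right (one_le_inv_iff₀.2 ⟨norm_pos_iff.2 u.ne_zero, h.le⟩)

theorem norm_zpow_le_max (u : Kˣ) {m : ℤ} {n : ℕ} (h : m.natAbs ≤ n) :
    ‖(u : K) ^ m‖ ≤ max ‖(u : K)‖ ‖(u : K)‖⁻¹ ^ n := by
  refine le_trans ?_ (pow_le_pow_right₀ (one_le_max_norm u) h)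
  rcases Int.natAbs_eq m with h' | h' <;> rw [h', norm_zpow]
  · rw [zpow_natCast, Int.natAbs_natCast]
    exact pow_le_pow_left₀ (norm_nonneg _) (le_max_left _ _) _
  · rw [zpow_neg, zpow_natCast, ← inv_pow, Int.natAbs_neg, Int.natAbs_natCast]
    exact pow_le_pow_left₀ (inv_nonneg.2 (norm_nonneg _)) (le_max_right _ _) _

theorem norm_mul_le_of_le_one {a b : K} {C : ℝ} (ha : ‖a‖ ≤ 1) (hb : ‖b‖ ≤ C) : ‖a * b‖ ≤ C := by
  rw [norm_mul]
  exact (mul_le_of_le_one_left (norm_nonneg b) ha).trans hb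

theorem norm_tail_term_le (u : Kˣ) (n : ℕ) :
    ‖evChar u (PowerSeries.coeff n tailX)‖ ≤ max ‖(u : K)‖ ‖(u : K)‖⁻¹ ^ n := by
  rw [tailX, PowerSeries.coeff_mk, map_sum]
  refine IsUltrametricDist.norm_sum_le_of_forall_le_of_nonneg (by positivity) fun m hm => ?_
  have hmn : m ≤ n := Nat.divisor_le hm
  rw [map_mul, map_natCast]
  refine norm_mul_le_of_le_one (IsUltrametricDist.norm_natCast_le_one K m) ?_
  rw [cP, map_sub, map_add, evChar_um, evChar_um, map_ofNat, sub_eq_add_neg]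
  refine (IsUltrametricDist.norm_add_le_max _ _).trans (max_le ?_ ?_)
  · refine (IsUltrametricDist.norm_add_le_max _ _).trans (max_le ?_ ?_) <;>
      exact norm_zpow_le_max u (by omega)
  · rw [norm_neg]
    exact le_trans (by exact_mod_cast IsUltrametricDist.norm_natCast_le_one K 2)
      (one_le_pow₀ (one_le_max_norm u))

theorem norm_tail_deriv_term_le (u : Kˣ) (n : ℕ) :
    ‖evChar u (PowerSeries.coeff n (sθ tailX))‖ ≤ max ‖(u : K)‖ ‖(u : K)‖⁻¹ ^ n := by
  rw [coeff_sEuler, tailX, PowerSeries.coeff_mk, map_sum, map_sum]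
  refine IsUltrametricDist.norm_sum_le_of_forall_le_of_nonneg (by positivity) fun m hm => ?_
  have hmn : m ≤ n := Nat.divisor_le hm
  have h2 : θ (2 : LP) = 0 := by
    rw [show (2 : LP) = single 0 2 from rfl, euler_single]
    simp
  rw [← nsmul_eq_mul, map_nsmul, map_nsmul, nsmul_eq_mul]
  refine norm_mul_le_of_le_one (IsUltrametricDist.norm_natCast_le_one K m) ?_
  rw [cP, map_sub, map_add, θ_um, θ_um, h2, sub_zero, map_add, map_zsmul, map_zsmul, evChar_um,
    evChar_um, zsmul_eq_mul, zsmul_eq_mul]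
  refine (IsUltrametricDist.norm_add_le_max _ _).trans (max_le ?_ ?_) <;>
    exact norm_mul_le_of_le_one (IsUltrametricDist.norm_intCast_le_one K _)
      (norm_zpow_le_max u (by omega))

theorem tailX_mem (h : InAnn q u) : tailX ∈ convOf (evChar u) q :=
  mem_convOf_of_bound _ annRate_nonneg h.rate_lt_one fun n => by
    rw [norm_mul, norm_pow, annRate, mul_pow, mul_comm]
    exact mul_le_mul_of_nonneg_left (norm_tail_term_le u n) (by positivity)

theorem tailZ_mem (h : InAnn q u) : sθ tailX ∈ convOf (evChar u) q :=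
  mem_convOf_of_bound _ annRate_nonneg h.rate_lt_one fun n => by
    rw [norm_mul, norm_pow, annRate, mul_pow, mul_comm]
    exact mul_le_mul_of_nonneg_left (norm_tail_deriv_term_le u n) (by positivity)

/-- `u - 2 + u⁻¹`. -/
def wVal (u : Kˣ) : K := (u : K) + (u : K)⁻¹ - 2

/-- `u - u⁻¹`. -/
def dVal (u : Kˣ) : K := (u : K) - (u : K)⁻¹

theorem evChar_wP (u : Kˣ) : evChar u wP = wVal u := by
  rw [wP, map_sub, map_add, evChar_um, evChar_um, map_ofNat, wVal, zpow_one, zpow_neg, zpow_one]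

theorem evChar_dP (u : Kˣ) : evChar u dP = dVal u := by
  rw [dP, map_sub, evChar_um, evChar_um, dVal, zpow_one, zpow_neg, zpow_one]

theorem wVal_eq (u : Kˣ) : wVal u = ((u : K) - 1) ^ 2 / u := by
  have := u.ne_zero
  rw [wVal]
  field_simp
  ring

theorem wVal_ne_zero {u : Kˣ} (hu : u ≠ 1) : wVal u ≠ 0 := by
  rw [wVal_eq]
  exact div_ne_zero (pow_ne_zero _ (sub_ne_zero.2 fun h => hu (Units.ext h))) u.ne_zero

/-- The positive part in `q` of `X` at `u`. -/
def tailXVal (q : K) (u : Kˣ) : K := ∑' n, evChar u (PowerSeries.coeff n tailX) * q ^ n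

/-- The positive part in `q` of `Z` at `u`. -/
def tailZVal (q : K) (u : Kˣ) : K := ∑' n, evChar u (PowerSeries.coeff n (sθ tailX)) * q ^ n

/-- Tate's `x`-series at `u`. -/
def tateX (q : K) (u : Kˣ) : K := (wVal u)⁻¹ + tailXVal q u

/-- `2 y + x` at `u`. -/
def tateZ (q : K) (u : Kˣ) : K := -dVal u / wVal u ^ 2 + tailZVal q u

theorem hatX_mem (h : InAnn q u) : hatX ∈ convOf (evChar u) q :=
  add_mem (one_mem _) (mul_mem (C_mem_convOf _ _ _) (tailX_mem h))

theorem hatZ_mem (h : InAnn q u) : hatZ ∈ convOf (evChar u) q := by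
  rw [hatZ_eq]
  exact add_mem (neg_mem (C_mem_convOf _ _ _))
    (mul_mem (pow_mem (C_mem_convOf _ _ _) 2) (tailZ_mem h))

theorem valOf_hatX (h : InAnn q u) :
    valOf (evChar u) q ⟨hatX, hatX_mem h⟩ = 1 + wVal u * tailXVal q u := by
  have e : (⟨hatX, hatX_mem h⟩ : convOf (evChar u) q) =
      1 + ⟨_, C_mem_convOf _ _ wP⟩ * ⟨_, tailX_mem h⟩ := Subtype.ext rfl
  rw [e, map_add, map_one, map_mul, valOf_C, evChar_wP, valOf_apply]
  rfl

theorem valOf_hatZ (h : InAnn q u) :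
    valOf (evChar u) q ⟨hatZ, hatZ_mem h⟩ = -dVal u + wVal u ^ 2 * tailZVal q u := by
  have e : (⟨hatZ, hatZ_mem h⟩ : convOf (evChar u) q) =
      -⟨_, C_mem_convOf _ _ dP⟩ + ⟨_, C_mem_convOf _ _ wP⟩ ^ 2 * ⟨_, tailZ_mem h⟩ :=
    Subtype.ext (by push_cast; exact hatZ_eq)
  rw [e, map_add, map_neg, map_mul, map_pow, valOf_C, valOf_C, evChar_wP, evChar_dP, valOf_apply]
  rfl

theorem valOf_hatX' (h : InAnn q u) (hu : u ≠ 1) :
    valOf (evChar u) q ⟨hatX, hatX_mem h⟩ = wVal u * tateX q u := by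
  rw [valOf_hatX h, tateX, mul_add, mul_inv_cancel₀ (wVal_ne_zero hu)]

theorem valOf_hatZ' (h : InAnn q u) (hu : u ≠ 1) :
    valOf (evChar u) q ⟨hatZ, hatZ_mem h⟩ = wVal u ^ 2 * tateZ q u := by
  rw [valOf_hatZ h, tateZ, mul_add, mul_div_cancel₀ _ (pow_ne_zero _ (wVal_ne_zero hu))]

/-! ### Tate's constants -/

/-- Tate's `a₄` at `q`. -/
def a4Val (hq : ‖q‖ < 1) : K := intEval hq a4s

/-- Tate's `a₆` at `q`. -/
def a6Val (hq : ‖q‖ < 1) : K := intEval hq a6s

/-- The equation satisfied by the values of Tate's series. -/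
theorem tate_equation (hq : ‖q‖ < 1) (h : InAnn q u) (hu : u ≠ 1) :
    tateZ q u ^ 2 = 4 * tateX q u ^ 3 + tateX q u ^ 2 + 4 * a4Val hq * tateX q u
      + 4 * a6Val hq := by
  let X' : convOf (evChar u) q := ⟨hatX, hatX_mem h⟩
  let Z' : convOf (evChar u) q := ⟨hatZ, hatZ_mem h⟩
  let W' : convOf (evChar u) q := ⟨_, C_mem_convOf _ _ wP⟩
  let A' : convOf (evChar u) q := ⟨cs a4s, map_intCast_mem_convOf _ hq a4s⟩
  let B' : convOf (evChar u) q := ⟨cs a6s, map_intCast_mem_convOf _ hq a6s⟩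
  have e : Z' ^ 2 - 4 * W' * X' ^ 3 - W' ^ 2 * X' ^ 2 - 4 * A' * W' ^ 3 * X' - 4 * B' * W' ^ 4
      = 0 := by
    refine Subtype.ext ?_
    simp only [AddSubgroupClass.coe_sub, Subring.coe_mul, Subring.coe_pow, Subring.coe_zero]
    exact defect_eq_zero
  have hA : valOf (evChar u) q A' = a4Val hq := valOf_map_intCast _ hq _
  have hB : valOf (evChar u) q B' = a6Val hq := valOf_map_intCast _ hq _
  have hW : valOf (evChar u) q W' = wVal u := by rw [valOf_C, evChar_wP]
  have e' := congrArg (valOf (evChar u) q) e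
  simp only [map_sub, map_mul, map_pow, map_ofNat, map_zero, hA, hB, hW, X', Z',
    valOf_hatX' h hu, valOf_hatZ' h hu] at e'
  refine mul_left_cancel₀ (pow_ne_zero 4 (wVal_ne_zero hu)) ?_
  linear_combination e'

/-! ### The addition theorem -/

section addition

theorem mem_sSub {g : ℤ →+ ℤ × ℤ} {w : Kˣ} (hg : u ^ (g 1).1 * v ^ (g 1).2 = w) {f : LPS}
    (hf : f ∈ convOf (evChar w) q) : sSub g f ∈ convOf (evChar2 u v) q := by
  show PowerSeries.map (evChar2 u v) (sSub g f) ∈ convSeries q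
  have h : PowerSeries.map (evChar2 u v) (sSub g f) = PowerSeries.map (evChar w) f := by
    ext n
    rw [sSub, PowerSeries.coeff_map, PowerSeries.coeff_map, PowerSeries.coeff_map,
      ← RingHom.comp_apply, evChar2_comp, hg]
  rw [h]
  exact hf

theorem valOf_sSub {g : ℤ →+ ℤ × ℤ} {w : Kˣ} (hg : u ^ (g 1).1 * v ^ (g 1).2 = w) {f : LPS}
    (hf : f ∈ convOf (evChar w) q) :
    valOf (evChar2 u v) q ⟨sSub g f, mem_sSub hg hf⟩ = valOf (evChar w) q ⟨f, hf⟩ := by
  rw [valOf_apply, valOf_apply]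
  refine tsum_congr fun n => ?_
  simp only [sSub, PowerSeries.coeff_map, ← RingHom.comp_apply, evChar2_comp, hg]

theorem gU_one : u ^ (gU 1).1 * v ^ (gU 1).2 = u := by simp [gU]
theorem gV_one : u ^ (gV 1).1 * v ^ (gV 1).2 = v := by simp [gV]
theorem gW_one : u ^ (gW 1).1 * v ^ (gW 1).2 = u * v := by simp [gW]

/-- The addition theorem for the values. -/
theorem tate_addition (hu : InAnn q u) (hv : InAnn q v) (huv : InAnn q (u * v))
    (hu1 : u ≠ 1) (hv1 : v ≠ 1) (huv1 : u * v ≠ 1) :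
    (4 * (tateX q (u * v) + tateX q u + tateX q v) + 1) * (tateX q u - tateX q v) ^ 2
        = (tateZ q u - tateZ q v) ^ 2 ∧
    (tateZ q (u * v) + tateZ q u) * (tateX q u - tateX q v)
        + (tateZ q u - tateZ q v) * (tateX q (u * v) - tateX q u) = 0 := by
  have hq := hu.norm_q_lt_one
  let χ := evChar2 u v
  let Xu' : convOf χ q := ⟨xAt gU, mem_sSub gU_one (hatX_mem hu)⟩
  let Xv' : convOf χ q := ⟨xAt gV, mem_sSub gV_one (hatX_mem hv)⟩
  let Xw' : convOf χ q := ⟨xAt gW, mem_sSub gW_one (hatX_mem huv)⟩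
  let Zu' : convOf χ q := ⟨zAt gU, mem_sSub gU_one (hatZ_mem hu)⟩
  let Zv' : convOf χ q := ⟨zAt gV, mem_sSub gV_one (hatZ_mem hv)⟩
  let Zw' : convOf χ q := ⟨zAt gW, mem_sSub gW_one (hatZ_mem huv)⟩
  let Wu' : convOf χ q := ⟨wAt gU, mem_sSub gU_one (C_mem_convOf _ _ wP)⟩
  let Wv' : convOf χ q := ⟨wAt gV, mem_sSub gV_one (C_mem_convOf _ _ wP)⟩
  let Ww' : convOf χ q := ⟨wAt gW, mem_sSub gW_one (C_mem_convOf _ _ wP)⟩
  let A' : convOf χ q := ⟨cs2 a4s, map_intCast_mem_convOf _ hq a4s⟩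
  let B' : convOf χ q := ⟨cs2 a6s, map_intCast_mem_convOf _ hq a6s⟩
  let D' : convOf χ q := Xu' * Wv' - Xv' * Wu'
  have hXu : valOf χ q Xu' = wVal u * tateX q u :=
    (valOf_sSub gU_one (hatX_mem hu)).trans (valOf_hatX' hu hu1)
  have hXv : valOf χ q Xv' = wVal v * tateX q v :=
    (valOf_sSub gV_one (hatX_mem hv)).trans (valOf_hatX' hv hv1)
  have hXw : valOf χ q Xw' = wVal (u * v) * tateX q (u * v) :=
    (valOf_sSub gW_one (hatX_mem huv)).trans (valOf_hatX' huv huv1)
  have hZu : valOf χ q Zu' = wVal u ^ 2 * tateZ q u :=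
    (valOf_sSub gU_one (hatZ_mem hu)).trans (valOf_hatZ' hu hu1)
  have hZv : valOf χ q Zv' = wVal v ^ 2 * tateZ q v :=
    (valOf_sSub gV_one (hatZ_mem hv)).trans (valOf_hatZ' hv hv1)
  have hZw : valOf χ q Zw' = wVal (u * v) ^ 2 * tateZ q (u * v) :=
    (valOf_sSub gW_one (hatZ_mem huv)).trans (valOf_hatZ' huv huv1)
  have hWu : valOf χ q Wu' = wVal u :=
    (valOf_sSub gU_one (C_mem_convOf _ _ wP)).trans (by rw [valOf_C, evChar_wP])
  have hWv : valOf χ q Wv' = wVal v :=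
    (valOf_sSub gV_one (C_mem_convOf _ _ wP)).trans (by rw [valOf_C, evChar_wP])
  have hWw : valOf χ q Ww' = wVal (u * v) :=
    (valOf_sSub gW_one (C_mem_convOf _ _ wP)).trans (by rw [valOf_C, evChar_wP])
  have hA : valOf χ q A' = a4Val hq := valOf_map_intCast _ hq _
  have hB : valOf χ q B' = a6Val hq := valOf_map_intCast _ hq _
  have eqv := tate_equation hq hv hv1
  have n0 : wVal u ^ 3 * wVal v ^ 2 * wVal (u * v) ^ 2 ≠ 0 :=
    mul_ne_zero (mul_ne_zero (pow_ne_zero _ (wVal_ne_zero hu1)) (pow_ne_zero _ (wVal_ne_zero hv1)))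
      (pow_ne_zero _ (wVal_ne_zero huv1))
  have n1 : wVal u ^ 4 * wVal v ^ 2 * wVal (u * v) ≠ 0 :=
    mul_ne_zero (mul_ne_zero (pow_ne_zero _ (wVal_ne_zero hu1)) (pow_ne_zero _ (wVal_ne_zero hv1)))
      (wVal_ne_zero huv1)
  constructor
  · have e : (4 * Xw' * Wu' + 4 * Xu' * Ww' + Wu' * Ww') * Wu' * D' ^ 2
        + 4 * Wv' * Xv' * Xu' ^ 2 * Ww' * Wu' ^ 2
        - 8 * Xu' * Xv' ^ 2 * Ww' * Wu' ^ 3
        - Xv' ^ 2 * Ww' * Wu' ^ 4
        - 4 * A' * Wv' * Xv' * Ww' * Wu' ^ 4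
        - 4 * B' * Wv' ^ 2 * Ww' * Wu' ^ 4
        - Wv' ^ 2 * Zu' ^ 2 * Ww' + 2 * Wu' ^ 2 * Zu' * Zv' * Ww' = 0 := by
      refine Subtype.ext ?_
      simp only [D', AddSubgroupClass.coe_sub, Subring.coe_add, Subring.coe_mul, Subring.coe_pow,
        Subring.coe_zero]
      exact addDefect_eq_zero
    have e' := congrArg (valOf χ q) e
    simp only [D', map_add, map_sub, map_mul, map_pow, map_ofNat, map_zero, hXu, hXv, hXw, hZu,
      hZv, hWu, hWv, hWw, hA, hB] at e'
    refine mul_left_cancel₀ n1 ?_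
    linear_combination e' - (wVal u ^ 4 * wVal v ^ 2 * wVal (u * v)) * eqv
  · have e : Zw' * D' * Wu' ^ 2 * Wv' + Zu' * D' * Wv' * Ww' ^ 2
        + (Zu' * Wv' ^ 2 - Zv' * Wu' ^ 2) * Wu' * Xw' * Ww'
        - (Zu' * Wv' ^ 2 - Zv' * Wu' ^ 2) * Xu' * Ww' ^ 2 = 0 := by
      refine Subtype.ext ?_
      simp only [D', AddSubgroupClass.coe_sub, Subring.coe_add, Subring.coe_mul, Subring.coe_pow,
        Subring.coe_zero]
      exact addDefectY_eq_zero
    have e' := congrArg (valOf χ q) e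
    simp only [D', map_add, map_sub, map_mul, map_pow, map_zero, hXu, hXv, hXw, hZu, hZv, hZw,
      hWu, hWv, hWw] at e'
    refine mul_left_cancel₀ n0 ?_
    linear_combination e'

end addition

end Fermat.Agent.Tate
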