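/-
Symmetries of the values of Tate's series, and their absolute values.
-/
import Fermat.Agent.Tate.Eval.Values

set_option autoImplicit false

noncomputable section

namespace Fermat.Agent.Tate

open AddMonoidAlgebra

variable {K : Type*} [NormedField K] [IsUltrametricDist K] [CompleteSpace K]
variable {q : K} {u v : Kˣ}

/-! ### `u ↦ u⁻¹` -/

theorem evChar_inv (u : Kˣ) (f : LP) : evChar u⁻¹ f = evChar u (inv1 f) := by
  induction f using AddMonoidAlgebra.induction_linear with
  | zero => simp only [map_zero]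
  | add a b ha hb => simp only [map_add, ha, hb]
  | single n c =>
    rw [inv1, mapDomainRingHom_apply, mapDomain_single, evChar_single, evChar_single,
      Units.val_inv_eq_inv_val, inv_zpow']
    rfl

theorem inv1_tailX : PowerSeries.map inv1 tailX = tailX := by
  ext1 n
  simp only [tailX, PowerSeries.coeff_map, PowerSeries.coeff_mk, map_sum, map_mul, map_natCast]
  refine Finset.sum_congr rfl fun m _ => ?_
  simp only [cP, map_sub, map_add, inv1_um, neg_neg, map_ofNat]
  ring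

theorem tateX_inv (q : K) (u : Kˣ) : tateX q u⁻¹ = tateX q u := by
  have h : wVal u⁻¹ = wVal u := by
    simp only [wVal, Units.val_inv_eq_inv_val, inv_inv]
    ring
  rw [tateX, tateX, h]
  congr 1
  refine tsum_congr fun n => ?_
  rw [evChar_inv, ← PowerSeries.coeff_map, inv1_tailX]

theorem tateZ_inv (q : K) (u : Kˣ) : tateZ q u⁻¹ = -tateZ q u := by
  have h : wVal u⁻¹ = wVal u := by
    simp only [wVal, Units.val_inv_eq_inv_val, inv_inv]
    ring
  have h' : dVal u⁻¹ = -dVal u := by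
    simp only [dVal, Units.val_inv_eq_inv_val, inv_inv]
    ring
  have hs : PowerSeries.map inv1 (sθ tailX) = -sθ tailX := by
    have e := sθ_map_inv1 tailX
    rw [inv1_tailX] at e
    exact neg_eq_iff_eq_neg.mp e.symm
  rw [tateZ, tateZ, h, h', neg_add, neg_neg, neg_div, neg_neg]
  congr 1
  rw [tailZVal, tailZVal, ← tsum_neg]
  refine tsum_congr fun n => ?_
  rw [evChar_inv, ← PowerSeries.coeff_map, hs, map_neg, map_neg, neg_mul]

/-! ### `u ↦ q / u` -/

/-- The general term of the value of an element of `ℤ⟦a, b⟧`. -/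
def abTerm (a b : K) (g : AB) (x : ℕ × ℕ) : K := (abCoeff x.1 x.2 g : K) * a ^ x.1 * b ^ x.2

theorem summable_abTerm {a b : K} (ha : ‖a‖ < 1) (hb : ‖b‖ < 1) (g : AB) :
    Summable (abTerm a b g) := by
  refine Summable.of_norm_bounded (g := fun x => ‖a‖ ^ x.1 * ‖b‖ ^ x.2)
    ((summable_geometric_of_lt_one (norm_nonneg a) ha).mul_of_nonneg
      (summable_geometric_of_lt_one (norm_nonneg b) hb) (fun n => by positivity)
      (fun n => by positivity)) fun x => ?_
  rw [abTerm, norm_mul, norm_mul, norm_pow, norm_pow, mul_assoc]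
  exact mul_le_of_le_one_left (by positivity) (IsUltrametricDist.norm_intCast_le_one K _)

/-- The value of an element of `ℤ⟦a, b⟧`. -/
def abEval (a b : K) (g : AB) : K := ∑' x, abTerm a b g x

theorem abEval_swap (a b : K) (g : AB) : abEval b a (swapAB g) = abEval a b g := by
  rw [abEval, abEval, ← (Equiv.prodComm ℕ ℕ).tsum_eq (abTerm a b g)]
  refine tsum_congr fun x => ?_
  simp only [abTerm, abCoeff_swapAB, Equiv.prodComm_apply, Prod.fst_swap, Prod.snd_swap]
  ring

theorem hasSum_evChar (u : Kˣ) (f : LP) :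
    HasSum (fun m : ℤ => (f.coeff m : K) * (u : K) ^ m) (evChar u f) := by
  induction f using AddMonoidAlgebra.induction_linear with
  | zero => simpa using hasSum_zero
  | add a b ha hb => simpa [add_mul] using ha.add hb
  | single n c =>
    rw [evChar_single]
    have h := hasSum_single (α := K) n (f := fun m : ℤ => ((single n c : LP).coeff m : K) *
      (u : K) ^ m) (fun m hm => by rw [coeff_single, Finsupp.single_eq_of_ne hm]; simp)
    rw [coeff_single, Finsupp.single_eq_same] at h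
    exact h

theorem sum_abTerm_fibre {g : AB} {B : ℕ} {f : LP}
    (hg : PowerSeries.coeff B (toLSS g) = lpToLS f) (u : Kˣ) (q : K) :
    HasSum (fun A => abTerm (u : K) (q / u) g (A, B)) (evChar u f * q ^ B) := by
  have hc : ∀ m : ℤ, f.coeff m =
      if 0 ≤ (B : ℤ) + m then abCoeff ((B : ℤ) + m).toNat B g else 0 := fun m => by
    rw [← coeff_toLSS, hg, coeff_lpToLS]
  have hinj : Function.Injective (fun A : ℕ => (A : ℤ) - B) := fun x y h => by simpa using h
  have h1 := (hasSum_evChar u f).mul_right (q ^ B)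
  rw [← hinj.hasSum_iff] at h1
  · refine h1.congr_fun fun A => ?_
    simp only [Function.comp, abTerm]
    rw [hc, if_pos (by omega), show ((B : ℤ) + ((A : ℤ) - B)).toNat = A by omega, div_pow,
      zpow_sub₀ u.ne_zero, zpow_natCast, zpow_natCast]
    ring
  · intro m hm
    have : ¬ 0 ≤ (B : ℤ) + m := fun h => hm ⟨((B : ℤ) + m).toNat, by simp only; omega⟩
    rw [hc, if_neg this]
    simp

theorem abEval_eq {g : AB} {f : LPS} {s : K} (hv : ‖(v : K)‖ < 1) (hvq : ‖q / (v : K)‖ < 1)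
    (hf0 : PowerSeries.coeff 0 f = 0)
    (hg : ∀ B ≠ 0, PowerSeries.coeff B (toLSS g) = lpToLS (PowerSeries.coeff B f))
    (h0 : HasSum (fun A => (abCoeff A 0 g : K) * (v : K) ^ A) s) :
    abEval (v : K) (q / v) g = s + ∑' n, evChar v (PowerSeries.coeff n f) * q ^ n := by
  classical
  have hs := summable_abTerm hv hvq g
  set F : ℕ → K := fun B =>
    (if B = 0 then s else 0) + evChar v (PowerSeries.coeff B f) * q ^ B with hF
  have hfib : ∀ B, HasSum (fun A => abTerm (v : K) (q / v) g (A, B)) (F B) := by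
    intro B
    simp only [hF]
    rcases eq_or_ne B 0 with rfl | hB
    · simp only [if_pos, hf0, map_zero, zero_mul, add_zero]
      refine h0.congr_fun fun A => ?_
      simp [abTerm]
    · simp only [if_neg hB, zero_add]
      exact sum_abTerm_fibre (hg B hB) v q
  have hsum : HasSum F (abEval (v : K) (q / v) g) :=
    HasSum.prod_fiberwise ((Equiv.prodComm ℕ ℕ).hasSum_iff.2 hs.hasSum) hfib
  have h1 : HasSum (fun B : ℕ => if B = 0 then s else 0) s := hasSum_ite_eq 0 s
  have h2 := hsum.sub h1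
  have h3 : HasSum (fun B => evChar v (PowerSeries.coeff B f) * q ^ B)
      (abEval (v : K) (q / v) g - s) := h2.congr_fun fun B => by simp [hF]
  rw [h3.tsum_eq]
  ring

theorem hasSum_natCast_mul_pow {x : K} (hx : ‖x‖ < 1) :
    HasSum (fun n : ℕ => (n : K) * x ^ n) (x / (1 - x) ^ 2) ∧
    HasSum (fun n : ℕ => ((n : K) ^ 2) * x ^ n) (x * (1 + x) / (1 - x) ^ 3) := by
  have hx1 : 1 - x ≠ 0 := sub_ne_zero.2 fun h => by
    rw [← h, norm_one] at hx
    exact lt_irrefl _ hx
  let P : PowerSeries ℤ := PowerSeries.mk fun n => (n : ℤ)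
  let Q : PowerSeries ℤ := PowerSeries.mk fun n => (n : ℤ) ^ 2
  have hP : (1 - PowerSeries.X) ^ 2 * P = PowerSeries.X := by
    rw [show (1 - PowerSeries.X : PowerSeries ℤ) ^ 2 * P
      = P - 2 * (PowerSeries.X * P) + PowerSeries.X * (PowerSeries.X * P) by ring]
    ext n
    rcases n with _ | _ | n <;>
      simp [P, PowerSeries.coeff_succ_X_mul, two_mul, PowerSeries.coeff_X]
  have hQ : (1 - PowerSeries.X) ^ 3 * Q = PowerSeries.X * (1 + PowerSeries.X) := by
    rw [show (1 - PowerSeries.X : PowerSeries ℤ) ^ 3 * Q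
      = Q - (PowerSeries.X * Q + PowerSeries.X * Q + PowerSeries.X * Q)
        + (PowerSeries.X * (PowerSeries.X * Q) + PowerSeries.X * (PowerSeries.X * Q)
          + PowerSeries.X * (PowerSeries.X * Q))
        - PowerSeries.X * (PowerSeries.X * (PowerSeries.X * Q)) by ring]
    ext n
    rcases n with _ | _ | _ | n <;>
      simp [Q, PowerSeries.coeff_succ_X_mul, PowerSeries.coeff_X, mul_add]
    ring
  have hsum : ∀ f : PowerSeries ℤ,
      Summable fun n => ((PowerSeries.coeff n f : ℤ) : K) * x ^ n := fun f =>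
    (intSeries_mem hx f).congr fun n => by simp [intSeries]
  refine ⟨?_, ?_⟩
  · have e := congrArg (intEval hx) hP
    rw [map_mul, map_pow, map_sub, map_one, intEval_X, mul_comm,
      ← eq_div_iff (pow_ne_zero _ hx1), intEval_apply] at e
    rw [← e]
    exact (hsum P).hasSum.congr_fun fun n => by simp [P]
  · have e := congrArg (intEval hx) hQ
    rw [map_mul, map_pow, map_sub, map_one, intEval_X, map_mul, map_add, map_one, intEval_X,
      mul_comm, ← eq_div_iff (pow_ne_zero _ hx1), intEval_apply] at e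
    rw [← e]
    exact (hsum Q).hasSum.congr_fun fun n => by simp [Q]

theorem abCoeff_abX_zero (A : ℕ) : abCoeff A 0 abX = (A : ℤ) := by
  simp only [abCoeff, abX, PowerSeries.coeff_mk, cXab]
  split_ifs with h1 h2 <;> simp_all

theorem abCoeff_abZ_zero (A : ℕ) : abCoeff A 0 abZ = (A : ℤ) ^ 2 := by
  simp only [abCoeff, abZ, PowerSeries.coeff_mk, cZab]
  split_ifs with h1 h2 <;> simp_all [pow_two]

theorem coeff_zero_tailX : PowerSeries.coeff 0 tailX = 0 := by simp [tailX]

theorem coeff_zero_tailZ : PowerSeries.coeff 0 (sθ tailX) = 0 := by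
  rw [coeff_sEuler, coeff_zero_tailX, map_zero]

theorem tateX_eq_abEval (hv : ‖(v : K)‖ < 1) (hvq : ‖q / (v : K)‖ < 1) :
    tateX q v = abEval (v : K) (q / v) abX := by
  have h0 : HasSum (fun A => (abCoeff A 0 abX : K) * (v : K) ^ A) ((v : K) / (1 - v) ^ 2) :=
    ((hasSum_natCast_mul_pow hv).1).congr_fun fun A => by simp [abCoeff_abX_zero]
  rw [abEval_eq hv hvq coeff_zero_tailX (fun B hB => coeff_toLSS_abX hB) h0, tateX, tailXVal]
  congr 1
  rw [wVal_eq, inv_div, sub_sq_comm]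

theorem tateZ_eq_abEval (hv : ‖(v : K)‖ < 1) (hvq : ‖q / (v : K)‖ < 1) :
    tateZ q v = abEval (v : K) (q / v) abZ := by
  have h0 : HasSum (fun A => (abCoeff A 0 abZ : K) * (v : K) ^ A)
      ((v : K) * (1 + v) / (1 - v) ^ 3) :=
    ((hasSum_natCast_mul_pow hv).2).congr_fun fun A => by simp [abCoeff_abZ_zero]
  rw [abEval_eq hv hvq coeff_zero_tailZ
    (fun B hB => by rw [coeff_toLSS_abZ hB, coeff_sEuler]) h0, tateZ, tailZVal]
  congr 1
  have hv0 := v.ne_zero
  have hv1 : (1 : K) - v ≠ 0 := sub_ne_zero.2 fun h => by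
    rw [← h, norm_one] at hv
    exact lt_irrefl _ hv
  have hv2 : (v : K) - 1 ≠ 0 := fun h => hv1 (by linear_combination -h)
  rw [wVal_eq, dVal]
  field_simp
  ring

/-- `u ↦ q / u` fixes `X` and negates `Z`. -/
theorem tate_shift {q' : Kˣ} (hv : ‖(v : K)‖ < 1) (hvq : ‖(q' : K)‖ < ‖(v : K)‖) :
    tateX (q' : K) (q' * v⁻¹) = tateX (q' : K) v ∧
      tateZ (q' : K) (q' * v⁻¹) = -tateZ (q' : K) v := by
  have h1 : ‖(q' : K) / (v : K)‖ < 1 := by
    rw [norm_div, div_lt_one (norm_pos_iff.2 v.ne_zero)]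
    exact hvq
  have e : ((q' * v⁻¹ : Kˣ) : K) = (q' : K) / v := by
    simp [div_eq_mul_inv]
  have h2 : (q' : K) / ((q' * v⁻¹ : Kˣ) : K) = (v : K) := by
    rw [e, div_div_cancel₀ q'.ne_zero]
  have h3 : ‖((q' * v⁻¹ : Kˣ) : K)‖ < 1 := by rw [e]; exact h1
  have h4 : ‖(q' : K) / ((q' * v⁻¹ : Kˣ) : K)‖ < 1 := by rw [h2]; exact hv
  refine ⟨?_, ?_⟩
  · rw [tateX_eq_abEval hv h1, tateX_eq_abEval h3 h4, h2, e,
      ← abEval_swap (v : K) ((q' : K) / v), show swapAB abX = abX from swap_abX]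
  · rw [tateZ_eq_abEval hv h1, tateZ_eq_abEval h3 h4, h2, e,
      ← abEval_swap (v : K) ((q' : K) / v), show swapAB abZ = -abZ from swap_abZ]
    simp [abEval, abTerm, abCoeff, tsum_neg]

/-! ### Absolute values -/

theorem norm_tailXVal_le (h : InAnn q u) : ‖tailXVal q u‖ ≤ annRate q u := by
  refine IsUltrametricDist.norm_tsum_le_of_forall_le_of_nonneg annRate_nonneg fun n => ?_
  rcases Nat.eq_zero_or_pos n with rfl | hn
  · rw [coeff_zero_tailX, map_zero, zero_mul, norm_zero]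
    exact annRate_nonneg
  · refine le_trans ?_ (pow_le_of_le_one annRate_nonneg h.rate_lt_one.le hn.ne')
    rw [norm_mul, norm_pow, annRate, mul_pow, mul_comm]
    exact mul_le_mul_of_nonneg_left (norm_tail_term_le u n) (by positivity)

theorem norm_tateX_lt_one (hu : ‖(u : K)‖ < 1) (h : ‖q‖ < ‖(u : K)‖) : ‖tateX q u‖ < 1 := by
  have hu0 : 0 < ‖(u : K)‖ := norm_pos_iff.2 u.ne_zero
  have hq : ‖q‖ * ‖(u : K)‖ < 1 := by
    nlinarith [norm_nonneg q]
  refine lt_of_le_of_lt (IsUltrametricDist.norm_add_le_max _ _)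
    (max_lt ?_ ((norm_tailXVal_le ⟨h, hq⟩).trans_lt (InAnn.rate_lt_one ⟨h, hq⟩)))
  rw [wVal_eq, inv_div, norm_div, norm_pow]
  have h1 : ‖(u : K) - 1‖ = 1 := by
    rw [sub_eq_add_neg, IsUltrametricDist.norm_add_eq_max_of_norm_ne_norm
      (by rw [norm_neg, norm_one]; exact hu.ne)]
    rw [norm_neg, norm_one]
    exact max_eq_right hu.le
  rw [h1]
  simpa using hu

theorem one_le_norm_tateX (hu : ‖(u : K)‖ = 1) (hu1 : u ≠ 1) (hq : ‖q‖ < 1) :
    1 ≤ ‖tateX q u‖ := by
  have h : InAnn q u := ⟨by rw [hu]; exact hq, by rw [hu, mul_one]; exact hq⟩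
  have hw : 1 ≤ ‖(wVal u)⁻¹‖ := by
    rw [norm_inv]
    refine one_le_inv_iff₀.2 ⟨norm_pos_iff.2 (wVal_ne_zero hu1), ?_⟩
    rw [wVal_eq, norm_div, norm_pow, hu, div_one]
    refine pow_le_one₀ (norm_nonneg _) ?_
    rw [sub_eq_add_neg]
    refine (IsUltrametricDist.norm_add_le_max _ _).trans ?_
    rw [hu, norm_neg, norm_one, max_self]
  have hne : ‖(wVal u)⁻¹‖ ≠ ‖tailXVal q u‖ :=
    ((norm_tailXVal_le h).trans_lt (h.rate_lt_one.trans_le hw)).ne'
  rw [tateX, IsUltrametricDist.norm_add_eq_max_of_norm_ne_norm hne]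
  exact le_max_of_le_left hw

theorem tateX_norm_of_near_one (hu : ‖(u : K) - 1‖ < 1) (hu1 : u ≠ 1) (hq : ‖q‖ < 1) :
    ‖tateX q u‖ = (‖(u : K) - 1‖ ^ 2)⁻¹ := by
  have hn : ‖(u : K)‖ = 1 := by
    have : (u : K) = ((u : K) - 1) + 1 := by ring
    rw [this, IsUltrametricDist.norm_add_eq_max_of_norm_ne_norm (by rw [norm_one]; exact hu.ne),
      norm_one]
    exact max_eq_right hu.le
  have h : InAnn q u := ⟨by rw [hn]; exact hq, by rw [hn, mul_one]; exact hq⟩
  have hpos : 0 < ‖(u : K) - 1‖ ^ 2 :=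
    pow_pos (norm_pos_iff.2 (sub_ne_zero.2 fun e => hu1 (Units.ext e))) 2
  have hw : ‖(wVal u)⁻¹‖ = (‖(u : K) - 1‖ ^ 2)⁻¹ := by
    rw [norm_inv, wVal_eq, norm_div, norm_pow, hn, div_one]
  have h1 : 1 ≤ (‖(u : K) - 1‖ ^ 2)⁻¹ :=
    one_le_inv_iff₀.2 ⟨hpos, pow_le_one₀ (norm_nonneg _) hu.le⟩
  rw [tateX, IsUltrametricDist.norm_add_eq_max_of_norm_ne_norm, hw]
  · exact max_eq_left (((norm_tailXVal_le h).trans h.rate_lt_one.le).trans h1)
  · rw [hw]
    exact ((norm_tailXVal_le h).trans_lt (h.rate_lt_one.trans_le h1)).ne'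

end Fermat.Agent.Tate
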