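/-
Tate's uniformisation: the homomorphism `K^* → E_q(K)` with kernel `q^ℤ`.
-/
import Fermat.Agent.Tate.Eval.Symmetry
import Mathlib.AlgebraicGeometry.EllipticCurve.Affine.Point
import Mathlib.Algebra.Order.Archimedean.Basic

set_option autoImplicit false

noncomputable section

namespace Fermat.Agent.Tate

open WeierstrassCurve

variable {K : Type*} [NormedField K] [IsUltrametricDist K] [CompleteSpace K]

/-- Tate's curve with integral power series as coefficients. -/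
def tateCurveSeries : WeierstrassCurve (PowerSeries ℤ) := ⟨1, 0, 0, a4s, a6s⟩

theorem coeff_a4s : PowerSeries.coeff 0 a4s = 0 ∧ PowerSeries.coeff 1 a4s = -5 := by
  have h : a4s = (-5 : ℤ) • s3 := by
    rw [a4s, zsmul_eq_mul]
    push_cast
    ring
  rw [h, map_zsmul, map_zsmul]
  simp only [s3, PowerSeries.coeff_mk, Nat.divisors_zero, Nat.divisors_one, Finset.sum_empty,
    Finset.sum_singleton]
  norm_num

theorem coeff_a6s : PowerSeries.coeff 0 a6s = 0 ∧ PowerSeries.coeff 1 a6s = -1 := by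
  have h : a6s = -s3 - (7 : ℤ) • s53 := by
    rw [a6s, zsmul_eq_mul]
    push_cast
    ring
  rw [h, map_sub, map_sub, map_neg, map_neg, map_zsmul, map_zsmul]
  simp only [s3, s53, kCoeff, PowerSeries.coeff_mk, Nat.divisors_zero, Nat.divisors_one,
    Finset.sum_empty, Finset.sum_singleton]
  norm_num

theorem coeff_Δ_tateCurveSeries :
    PowerSeries.coeff 0 tateCurveSeries.Δ = 0 ∧ PowerSeries.coeff 1 tateCurveSeries.Δ = 1 := by
  have h : tateCurveSeries.Δ = -a6s + (a4s * a4s + (72 * (a4s * a6s)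
      - (64 * (a4s * (a4s * a4s)) + 432 * (a6s * a6s)))) := by
    simp only [tateCurveSeries, WeierstrassCurve.Δ, WeierstrassCurve.b₂, WeierstrassCurve.b₄,
      WeierstrassCurve.b₆, WeierstrassCurve.b₈]
    ring
  have h4 := coeff_a4s
  have h6 := coeff_a6s
  have hm : ∀ f g : PowerSeries ℤ, PowerSeries.coeff 0 f = 0 → PowerSeries.coeff 0 g = 0 →
      PowerSeries.coeff 0 (f * g) = 0 ∧ PowerSeries.coeff 1 (f * g) = 0 := fun f g hf hg => by
    simp [PowerSeries.coeff_mul, Finset.Nat.antidiagonal_succ, hf, hg]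
  have hc : ∀ (c : ℕ) (f : PowerSeries ℤ), PowerSeries.coeff 0 f = 0 ∧ PowerSeries.coeff 1 f = 0 →
      PowerSeries.coeff 0 ((c : PowerSeries ℤ) * f) = 0 ∧
        PowerSeries.coeff 1 ((c : PowerSeries ℤ) * f) = 0 := fun c f hf => by
    rw [← nsmul_eq_mul, map_nsmul, map_nsmul, hf.1, hf.2]
    simp
  have h44 := hm a4s a4s h4.1 h4.1
  have h46 : PowerSeries.coeff 0 (72 * (a4s * a6s)) = 0 ∧
      PowerSeries.coeff 1 (72 * (a4s * a6s)) = 0 := by
    exact_mod_cast hc 72 _ (hm a4s a6s h4.1 h6.1)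
  have h444 : PowerSeries.coeff 0 (64 * (a4s * (a4s * a4s))) = 0 ∧
      PowerSeries.coeff 1 (64 * (a4s * (a4s * a4s))) = 0 := by
    exact_mod_cast hc 64 _ (hm a4s _ h4.1 h44.1)
  have h66 : PowerSeries.coeff 0 (432 * (a6s * a6s)) = 0 ∧
      PowerSeries.coeff 1 (432 * (a6s * a6s)) = 0 := by
    exact_mod_cast hc 432 _ (hm a6s a6s h6.1 h6.1)
  simp only [h, map_add, map_sub, map_neg, h44, h46, h444, h66, h6]
  norm_num

variable {q : Kˣ}

/-- Tate's curve at `q`. -/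
def tateCurve (hq : ‖(q : K)‖ < 1) : WeierstrassCurve K := tateCurveSeries.map (intEval hq)

section

variable (hq : ‖(q : K)‖ < 1)

@[simp] theorem tateCurve_a₁ : (tateCurve hq).a₁ = 1 := by simp [tateCurve, tateCurveSeries]
@[simp] theorem tateCurve_a₂ : (tateCurve hq).a₂ = 0 := by simp [tateCurve, tateCurveSeries]
@[simp] theorem tateCurve_a₃ : (tateCurve hq).a₃ = 0 := by simp [tateCurve, tateCurveSeries]
@[simp] theorem tateCurve_a₄ : (tateCurve hq).a₄ = a4Val hq := rfl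
@[simp] theorem tateCurve_a₆ : (tateCurve hq).a₆ = a6Val hq := rfl

theorem norm_tateCurve_Δ : ‖(tateCurve hq).Δ‖ = ‖(q : K)‖ := by
  rw [tateCurve, map_Δ]
  have h := norm_intEval_sub_le hq (tateCurveSeries.Δ - PowerSeries.X) (N := 2) (fun n hn => by
    rcases n with _ | _ | n
    · rw [map_sub, coeff_Δ_tateCurveSeries.1, PowerSeries.coeff_zero_X, sub_zero]
    · simp [coeff_Δ_tateCurveSeries.2]
    · omega)
  rw [map_sub, intEval_X] at h
  have hq0 : 0 < ‖(q : K)‖ := norm_pos_iff.2 q.ne_zero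
  have hlt : ‖intEval hq tateCurveSeries.Δ - q‖ < ‖(q : K)‖ :=
    h.trans_lt (by nlinarith)
  have e : intEval hq tateCurveSeries.Δ = (intEval hq tateCurveSeries.Δ - q) + q := by ring
  rw [e, IsUltrametricDist.norm_add_eq_max_of_norm_ne_norm hlt.ne]
  exact max_eq_right hlt.le

theorem tateCurve_Δ_ne_zero : (tateCurve hq).Δ ≠ 0 :=
  norm_ne_zero_iff.1 (by rw [norm_tateCurve_Δ]; exact norm_ne_zero_iff.2 q.ne_zero)

end

variable [CharZero K]

theorem tate_nonsingular (hq : ‖(q : K)‖ < 1) {u : Kˣ} (hu : InAnn (q : K) u) (hu1 : u ≠ 1) :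
    (tateCurve hq).toAffine.Nonsingular (tateX (q : K) u)
      ((tateZ (q : K) u - tateX (q : K) u) / 2) := by
  refine (Affine.equation_iff_nonsingular_of_Δ_ne_zero (tateCurve_Δ_ne_zero hq)).1 ?_
  have h := tate_equation hq hu hu1
  rw [Affine.equation_iff]
  simp only [tateCurve_a₁, tateCurve_a₂, tateCurve_a₃, tateCurve_a₄, tateCurve_a₆]
  linear_combination h / 4

open Classical in
/-- The point at `u` in the annulus. -/
def annPoint (hq : ‖(q : K)‖ < 1) (u : Kˣ) : (tateCurve hq).toAffine.Point :=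
  if h : InAnn (q : K) u ∧ u ≠ 1 then .some _ _ (tate_nonsingular hq h.1 h.2) else 0

theorem annPoint_of_ne (hq : ‖(q : K)‖ < 1) {u : Kˣ} (hu : InAnn (q : K) u) (hu1 : u ≠ 1) :
    annPoint hq u = .some _ _ (tate_nonsingular hq hu hu1) := dif_pos ⟨hu, hu1⟩

theorem annPoint_one (hq : ‖(q : K)‖ < 1) : annPoint hq 1 = 0 := dif_neg (fun h => h.2 rfl)

theorem point_some_congr {W : WeierstrassCurve.Affine K} {x y x' y' : K} {h : W.Nonsingular x y}
    {h' : W.Nonsingular x' y'} (hx : x = x') (hy : y = y') :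
    (Affine.Point.some x y h : W.Point) = Affine.Point.some x' y' h' := by
  subst hx; subst hy; rfl

variable [DecidableEq K]

theorem annPoint_inv (hq : ‖(q : K)‖ < 1) {u : Kˣ} (hu : InAnn (q : K) u) :
    annPoint hq u⁻¹ = -annPoint hq u := by
  rcases eq_or_ne u 1 with rfl | hu1
  · simp [annPoint_one]
  rw [annPoint_of_ne hq hu.inv (inv_ne_one.2 hu1), annPoint_of_ne hq hu hu1, Affine.Point.neg_some]
  refine point_some_congr (tateX_inv _ u) ?_
  rw [tateX_inv, tateZ_inv, Affine.negY, tateCurve_a₁, tateCurve_a₃]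
  ring

/-- The addition theorem on the annulus, generic case. -/
theorem annPoint_add_of_X_ne (hq : ‖(q : K)‖ < 1) {u v : Kˣ} (hu : InAnn (q : K) u)
    (hv : InAnn (q : K) v) (huv : InAnn (q : K) (u * v)) (hu1 : u ≠ 1) (hv1 : v ≠ 1)
    (hx : tateX (q : K) u ≠ tateX (q : K) v) :
    annPoint hq u + annPoint hq v = annPoint hq (u * v) := by
  have huv1 : u * v ≠ 1 := by
    intro h
    rw [eq_inv_of_mul_eq_one_right h, tateX_inv] at hx
    exact hx rfl
  obtain ⟨h1, h2⟩ := tate_addition hu hv huv hu1 hv1 huv1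
  rw [annPoint_of_ne hq hu hu1, annPoint_of_ne hq hv hv1, annPoint_of_ne hq huv huv1,
    Affine.Point.add_of_X_ne hx]
  have hd : tateX (q : K) u - tateX (q : K) v ≠ 0 := sub_ne_zero.2 hx
  set X₁ := tateX (q : K) u with hX₁
  set X₂ := tateX (q : K) v with hX₂
  set X₃ := tateX (q : K) (u * v) with hX₃
  set Z₁ := tateZ (q : K) u with hZ₁
  set Z₂ := tateZ (q : K) v with hZ₂
  set Z₃ := tateZ (q : K) (u * v) with hZ₃
  set l := ((Z₁ - X₁) / 2 - (Z₂ - X₂) / 2) / (X₁ - X₂) with hl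
  have hl' : (2 * l + 1) * (X₁ - X₂) = Z₁ - Z₂ := by
    rw [hl]
    field_simp
    ring
  have eX : (tateCurve hq).toAffine.addX X₁ X₂
      ((tateCurve hq).toAffine.slope X₁ X₂ ((Z₁ - X₁) / 2) ((Z₂ - X₂) / 2)) = X₃ := by
    rw [Affine.slope_of_X_ne hx, ← hl, Affine.addX, tateCurve_a₁, tateCurve_a₂]
    refine mul_right_cancel₀ (pow_ne_zero 2 hd) ?_
    linear_combination (((2 * l + 1) * (X₁ - X₂) + (Z₁ - Z₂)) * hl' - h1) / 4
  refine point_some_congr eX ?_
  rw [Affine.addY, eX, Affine.negAddY, eX, Affine.slope_of_X_ne hx, ← hl, Affine.negY,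
    tateCurve_a₁, tateCurve_a₃]
  refine mul_right_cancel₀ hd ?_
  linear_combination (-(X₃ - X₁) / 2) * hl' - h2 / 2

/-- `u ↦ q / u` on points. -/
theorem annPoint_q_div (hq : ‖(q : K)‖ < 1) {v : Kˣ} (hv : ‖(v : K)‖ < 1)
    (hvq : ‖(q : K)‖ < ‖(v : K)‖) :
    annPoint hq (q * v⁻¹) = -annPoint hq v := by
  have hv0 : 0 < ‖(v : K)‖ := norm_pos_iff.2 v.ne_zero
  have hq0 : 0 < ‖(q : K)‖ := norm_pos_iff.2 q.ne_zero
  have hA : InAnn (q : K) v := ⟨hvq, by nlinarith⟩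
  have hv1 : v ≠ 1 := by rintro rfl; simp at hv
  have hn : ‖((q * v⁻¹ : Kˣ) : K)‖ = ‖(q : K)‖ / ‖(v : K)‖ := by simp [div_eq_mul_inv]
  have hlt : ‖((q * v⁻¹ : Kˣ) : K)‖ < 1 := by rw [hn, div_lt_one hv0]; exact hvq
  have hgt : ‖(q : K)‖ < ‖((q * v⁻¹ : Kˣ) : K)‖ := by
    rw [hn, lt_div_iff₀ hv0]
    exact mul_lt_of_lt_one_right hq0 hv
  have hB : InAnn (q : K) (q * v⁻¹) := ⟨hgt, by nlinarith⟩
  have hw1 : q * v⁻¹ ≠ 1 := fun h => by rw [h] at hlt; simp at hlt
  obtain ⟨ex, ez⟩ := tate_shift (q' := q) hv hvq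
  rw [annPoint_of_ne hq hA hv1, annPoint_of_ne hq hB hw1, Affine.Point.neg_some]
  refine point_some_congr ex ?_
  rw [ex, ez, Affine.negY, tateCurve_a₁, tateCurve_a₃]
  ring

/-! ### Reduction to the fundamental domain -/

omit [IsUltrametricDist K] [CompleteSpace K] [CharZero K] [DecidableEq K] in
theorem exists_qIndex (hq : ‖(q : K)‖ < 1) (u : Kˣ) :
    ∃ n : ℤ, ‖(q : K)‖ < ‖((u * q ^ n : Kˣ) : K)‖ ∧ ‖((u * q ^ n : Kˣ) : K)‖ ≤ 1 := by
  have hq0 : 0 < ‖(q : K)‖ := norm_pos_iff.2 q.ne_zero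
  obtain ⟨n, hn1, hn2⟩ := exists_mem_Ioc_zpow (norm_pos_iff.2 u.ne_zero)
    (one_lt_inv_iff₀.2 ⟨hq0, hq⟩)
  refine ⟨n + 1, ?_, ?_⟩
  · rw [Units.val_mul, Units.val_zpow_eq_zpow_val, norm_mul, norm_zpow, zpow_add₀ hq0.ne', zpow_one,
      ← mul_assoc]
    refine lt_mul_of_one_lt_left hq0 ?_
    rw [inv_zpow, inv_lt_iff_one_lt_mul₀ (zpow_pos hq0 n)] at hn1
    exact hn1
  · rw [Units.val_mul, Units.val_zpow_eq_zpow_val, norm_mul, norm_zpow]
    rw [inv_zpow, ← one_div, le_div_iff₀ (zpow_pos hq0 _)] at hn2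
    exact hn2

/-- The exponent moving `u` into the fundamental domain. -/
def qIndex (hq : ‖(q : K)‖ < 1) (u : Kˣ) : ℤ := (exists_qIndex hq u).choose

/-- The representative in the fundamental domain. -/
def qReduce (hq : ‖(q : K)‖ < 1) (u : Kˣ) : Kˣ := u * q ^ qIndex hq u

theorem qReduce_spec (hq : ‖(q : K)‖ < 1) (u : Kˣ) :
    ‖(q : K)‖ < ‖(qReduce hq u : K)‖ ∧ ‖(qReduce hq u : K)‖ ≤ 1 :=
  (exists_qIndex hq u).choose_spec

theorem qReduce_inAnn (hq : ‖(q : K)‖ < 1) (u : Kˣ) : InAnn (q : K) (qReduce hq u) :=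
  ⟨(qReduce_spec hq u).1,
    lt_of_le_of_lt (mul_le_of_le_one_right (norm_nonneg _) (qReduce_spec hq u).2) hq⟩

theorem qReduce_eq (hq : ‖(q : K)‖ < 1) {u v : Kˣ} {k : ℤ} (h : v = u * q ^ k)
    (h1 : ‖(q : K)‖ < ‖(v : K)‖) (h2 : ‖(v : K)‖ ≤ 1) : qReduce hq u = v := by
  have hq0 : 0 < ‖(q : K)‖ := norm_pos_iff.2 q.ne_zero
  obtain ⟨g1, g2⟩ := qReduce_spec hq u
  set m := qIndex hq u - k with hm
  have e : qReduce hq u = v * q ^ m := by
    rw [h, qReduce, hm, mul_assoc, ← zpow_add, add_sub_cancel]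
  rcases lt_trichotomy m 0 with hneg | hz | hpos
  · exfalso
    have : ‖(v : K)‖ = ‖(qReduce hq u : K)‖ * ‖(q : K)‖ ^ (-m) := by
      rw [e, Units.val_mul, norm_mul, Units.val_zpow_eq_zpow_val, norm_zpow, mul_assoc,
        ← zpow_add₀ hq0.ne', add_neg_cancel, zpow_zero, mul_one]
    have hle : ‖(q : K)‖ ^ (-m) ≤ ‖(q : K)‖ := by
      calc ‖(q : K)‖ ^ (-m) ≤ ‖(q : K)‖ ^ (1 : ℤ) :=
            zpow_le_zpow_right_of_le_one₀ hq0 hq.le (by omega)
        _ = _ := zpow_one _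
    nlinarith [norm_nonneg (qReduce hq u : K)]
  · rw [e, hz, zpow_zero, mul_one]
  · exfalso
    have : ‖(qReduce hq u : K)‖ = ‖(v : K)‖ * ‖(q : K)‖ ^ m := by
      rw [e, Units.val_mul, norm_mul, Units.val_zpow_eq_zpow_val, norm_zpow]
    have hle : ‖(q : K)‖ ^ m ≤ ‖(q : K)‖ := by
      calc ‖(q : K)‖ ^ m ≤ ‖(q : K)‖ ^ (1 : ℤ) :=
            zpow_le_zpow_right_of_le_one₀ hq0 hq.le (by omega)
        _ = _ := zpow_one _
    nlinarith [norm_nonneg (v : K)]

/-- The uniformisation, as a map. -/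
def tateMap (hq : ‖(q : K)‖ < 1) (u : Kˣ) : (tateCurve hq).toAffine.Point :=
  annPoint hq (qReduce hq u)

theorem tateMap_mul_zpow (hq : ‖(q : K)‖ < 1) (u : Kˣ) (k : ℤ) :
    tateMap hq (u * q ^ k) = tateMap hq u := by
  rw [tateMap, tateMap, qReduce_eq hq (u := u * q ^ k) (v := qReduce hq u)
    (k := qIndex hq u - k) (by rw [qReduce, mul_assoc, ← zpow_add, add_sub_cancel])
    (qReduce_spec hq u).1 (qReduce_spec hq u).2]

theorem tateMap_of_inAnn (hq : ‖(q : K)‖ < 1) {u : Kˣ} (hu : InAnn (q : K) u) :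
    tateMap hq u = annPoint hq u := by
  rcases le_or_gt ‖(u : K)‖ 1 with h | h
  · rw [tateMap, qReduce_eq hq (k := 0) (v := u) (by simp) hu.lower h]
  · have hq0 : 0 < ‖(q : K)‖ := norm_pos_iff.2 q.ne_zero
    have h1 : ‖((u * q : Kˣ) : K)‖ < 1 := by
      rw [Units.val_mul, norm_mul, mul_comm]; exact hu.upper
    have h2 : ‖(q : K)‖ < ‖((u * q : Kˣ) : K)‖ := by
      rw [Units.val_mul, norm_mul]; exact lt_mul_of_one_lt_left hq0 h
    rw [tateMap, qReduce_eq hq (k := 1) (v := u * q) (by simp) h2 h1.le]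
    have e := annPoint_q_div hq (v := u * q) h1 h2
    rw [mul_inv_rev, mul_inv_cancel_left, annPoint_inv hq hu] at e
    exact (neg_inj.1 e).symm

theorem tateMap_inv (hq : ‖(q : K)‖ < 1) (u : Kˣ) : tateMap hq u⁻¹ = -tateMap hq u := by
  have e : u⁻¹ = (qReduce hq u)⁻¹ * q ^ qIndex hq u := by
    rw [qReduce, mul_inv_rev, mul_comm (q ^ qIndex hq u)⁻¹, inv_mul_cancel_right]
  rw [e, tateMap_mul_zpow, tateMap_of_inAnn hq (qReduce_inAnn hq u).inv,
    annPoint_inv hq (qReduce_inAnn hq u)]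
  rfl

theorem tateMap_one (hq : ‖(q : K)‖ < 1) : tateMap hq 1 = 0 := by
  rw [tateMap, qReduce_eq hq (k := 0) (v := 1) (by simp) (by simpa using hq) (by simp),
    annPoint_one]

theorem tateMap_eq_zero_iff (hq : ‖(q : K)‖ < 1) (u : Kˣ) :
    tateMap hq u = 0 ↔ ∃ k : ℤ, u = q ^ k := by
  constructor
  · intro h
    by_cases h1 : qReduce hq u = 1
    · exact ⟨-qIndex hq u, by rw [zpow_neg]; exact eq_inv_of_mul_eq_one_left h1⟩
    · rw [tateMap, annPoint_of_ne hq (qReduce_inAnn hq u) h1] at h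
      exact absurd h (Affine.Point.some_ne_zero _)
  · rintro ⟨k, rfl⟩
    rw [← one_mul (q ^ k), tateMap_mul_zpow, tateMap_one]

theorem tateMap_add_generic (hq : ‖(q : K)‖ < 1) (u v : Kˣ)
    (h1 : tateMap hq u ≠ tateMap hq v) (h2 : tateMap hq u ≠ -tateMap hq v) :
    tateMap hq u + tateMap hq v = tateMap hq (u * v) := by
  have hq0 : 0 < ‖(q : K)‖ := norm_pos_iff.2 q.ne_zero
  set a := qReduce hq u with ha
  set b := qReduce hq v with hb
  have hab : tateMap hq (u * v) = tateMap hq (a * b) := by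
    rw [ha, hb, qReduce, qReduce, mul_mul_mul_comm, ← zpow_add, tateMap_mul_zpow]
  rw [hab]
  have hu' : tateMap hq u = annPoint hq a := rfl
  have hv' : tateMap hq v = annPoint hq b := rfl
  rcases eq_or_ne a 1 with ha1 | ha1
  · rw [hu', ha1, annPoint_one, zero_add, one_mul, hv', tateMap_of_inAnn hq (qReduce_inAnn hq v)]
  rcases eq_or_ne b 1 with hb1 | hb1
  · rw [hv', hb1, annPoint_one, add_zero, mul_one, hu', tateMap_of_inAnn hq (qReduce_inAnn hq u)]
  have hA := qReduce_inAnn hq u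
  have hB := qReduce_inAnn hq v
  have hxne : ∀ c : Kˣ, InAnn (q : K) c → c ≠ 1 → annPoint hq c = tateMap hq v →
      tateX (q : K) a ≠ tateX (q : K) c := by
    intro c hc hc1 hcv hx
    rw [hu', ← hcv] at h1 h2
    rw [annPoint_of_ne hq hA ha1, annPoint_of_ne hq hc hc1] at h1 h2
    rw [Affine.Point.neg_some] at h2
    rcases Affine.Y_eq_of_X_eq (tate_nonsingular hq hA ha1).1 (tate_nonsingular hq hc hc1).1 hx
      with hy | hy
    · exact h1 (point_some_congr hx hy)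
    · exact h2 (point_some_congr hx hy)
  obtain ⟨ga1, ga2⟩ := qReduce_spec hq u
  obtain ⟨gb1, gb2⟩ := qReduce_spec hq v
  rw [← ha] at ga1 ga2
  rw [← hb] at gb1 gb2
  rcases lt_or_ge ‖(q : K)‖ ‖((a * b : Kˣ) : K)‖ with hc | hc
  · have hC : InAnn (q : K) (a * b) := ⟨hc, lt_of_le_of_lt (mul_le_of_le_one_right (norm_nonneg _)
      (by rw [Units.val_mul, norm_mul]; exact mul_le_one₀ ga2 (norm_nonneg _) gb2)) hq⟩
    rw [hu', hv', tateMap_of_inAnn hq hC]
    exact annPoint_add_of_X_ne hq hA hB hC ha1 hb1 (hxne b hB hb1 rfl)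
  · rw [Units.val_mul, norm_mul] at hc
    have hblt : ‖(b : K)‖ < 1 := by
      by_contra hge
      nlinarith [norm_nonneg (a : K)]
    set w := b * q⁻¹ with hw
    have hwn : ‖(w : K)‖ = ‖(b : K)‖ / ‖(q : K)‖ := by simp [hw, div_eq_mul_inv]
    have hwgt : 1 < ‖(w : K)‖ := by rw [hwn, one_lt_div hq0]; exact gb1
    have hW : InAnn (q : K) w := ⟨hq.trans hwgt, by
      rw [hwn, mul_div_cancel₀ _ hq0.ne']; exact hblt⟩
    have hw1 : w ≠ 1 := fun h => by rw [h] at hwgt; simp at hwgt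
    have hwv : annPoint hq w = tateMap hq v := by
      rw [← tateMap_of_inAnn hq hW, hw, ← zpow_neg_one, tateMap_mul_zpow,
        tateMap_of_inAnn hq hB]
      rfl
    have hawn : ‖((a * w : Kˣ) : K)‖ = ‖(a : K)‖ * ‖(b : K)‖ / ‖(q : K)‖ := by
      rw [Units.val_mul, norm_mul, hwn, mul_div_assoc]
    have hC : InAnn (q : K) (a * w) := by
      refine ⟨?_, ?_⟩
      · rw [hawn, lt_div_iff₀ hq0]; nlinarith
      · rw [hawn, mul_div_cancel₀ _ hq0.ne']; exact hc.trans_lt hq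
    rw [hu', ← hwv, annPoint_add_of_X_ne hq hA hW hC ha1 hw1 (hxne w hW hw1 hwv),
      ← tateMap_of_inAnn hq hC, hw, ← mul_assoc, ← zpow_neg_one, tateMap_mul_zpow]

theorem infinite_range_tateMap (hq : ‖(q : K)‖ < 1) : (Set.range (tateMap hq)).Infinite := by
  have hq0 : 0 < ‖(q : K)‖ := norm_pos_iff.2 q.ne_zero
  have hne : ∀ k : ℕ, (1 : K) + (q : K) ^ (k + 1) ≠ 0 := by
    intro k h
    have := congrArg (fun x : K => ‖x‖) (eq_neg_of_add_eq_zero_left h)
    rw [norm_one, norm_neg, norm_pow] at this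
    linarith [pow_lt_one₀ (norm_nonneg (q : K)) hq (show k + 1 ≠ 0 by omega)]
  let t : ℕ → Kˣ := fun k => Units.mk0 _ (hne k)
  have ht : ∀ k, ‖(t k : K) - 1‖ = ‖(q : K)‖ ^ (k + 1) := fun k => by simp [t]
  have ht1 : ∀ k, t k ≠ 1 := fun k h => by
    have := ht k
    rw [h, Units.val_one, sub_self, norm_zero] at this
    exact (pow_pos hq0 _).ne this
  have hlt : ∀ k, ‖(t k : K) - 1‖ < 1 := fun k => by
    rw [ht]
    exact pow_lt_one₀ (norm_nonneg _) hq (Nat.succ_ne_zero k)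
  have hA : ∀ k, InAnn (q : K) (t k) := fun k => by
    have hn : ‖(t k : K)‖ = 1 := by
      have e : (t k : K) = ((t k : K) - 1) + 1 := by ring
      rw [e, IsUltrametricDist.norm_add_eq_max_of_norm_ne_norm
        (by rw [norm_one]; exact (hlt k).ne), norm_one]
      exact max_eq_right (hlt k).le
    exact ⟨by rw [hn]; exact hq, by rw [hn, mul_one]; exact hq⟩
  refine Set.infinite_of_injective_forall_mem (f := fun k => tateMap hq (t k)) ?_
    fun k => ⟨t k, rfl⟩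
  intro i j h
  simp only [tateMap_of_inAnn hq (hA _), annPoint_of_ne hq (hA _) (ht1 _),
    Affine.Point.some.injEq] at h
  have h' := congrArg (fun x : K => ‖x‖) h.1
  rw [tateX_norm_of_near_one (hlt i) (ht1 i) hq, tateX_norm_of_near_one (hlt j) (ht1 j) hq,
    ht, ht, inv_inj, ← pow_mul, ← pow_mul] at h'
  have := pow_right_injective₀ hq0 hq.ne h'
  omega

theorem tateMap_mul (hq : ‖(q : K)‖ < 1) (x y : Kˣ) :
    tateMap hq (x * y) = tateMap hq x + tateMap hq y := by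
  set a := tateMap hq x
  set b := tateMap hq y
  set c := tateMap hq (x * y)
  classical
  obtain ⟨P, ⟨t, rfl⟩, hP⟩ := ((infinite_range_tateMap hq).sdiff
    ({c, -c, b, -b, a - b, -a - b} : Finset (tateCurve hq).toAffine.Point).finite_toSet).nonempty
  simp only [Finset.coe_insert, Finset.coe_singleton, Set.mem_insert_iff, Set.mem_singleton_iff,
    not_or] at hP
  obtain ⟨h1, h2, h3, h4, h5, h6⟩ := hP
  have e1 : tateMap hq (x * y * t) = c + tateMap hq t :=
    (tateMap_add_generic hq _ t (Ne.symm h1) fun h => h2 (neg_eq_iff_eq_neg.1 h.symm)).symm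
  have e2 : tateMap hq (y * t) = b + tateMap hq t :=
    (tateMap_add_generic hq _ t (Ne.symm h3) fun h => h4 (neg_eq_iff_eq_neg.1 h.symm)).symm
  have e3 : tateMap hq (x * (y * t)) = a + tateMap hq (y * t) := by
    refine (tateMap_add_generic hq x (y * t) ?_ ?_).symm <;> rw [e2] <;> intro h
    · exact h5 (eq_sub_of_add_eq' h.symm)
    · exact h6 (eq_sub_of_add_eq' (by rw [show a = -(b + tateMap hq t) from h, neg_neg]))
  rw [mul_assoc, e3, e2, ← add_assoc] at e1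
  exact (add_right_cancel e1).symm

/-- Tate's uniformisation as a homomorphism. -/
def tateHom (hq : ‖(q : K)‖ < 1) : Additive Kˣ →+ (tateCurve hq).toAffine.Point :=
  AddMonoidHom.mk' (fun u => tateMap hq u.toMul) fun a b => tateMap_mul hq a.toMul b.toMul

theorem tateMap_zpow (hq : ‖(q : K)‖ < 1) (u : Kˣ) (n : ℤ) :
    tateMap hq (u ^ n) = n • tateMap hq u :=
  (tateHom hq).map_zsmul n (Additive.ofMul u)

/-- The affine coordinates of `tateMap hq u` when `u` is not in `q^ℤ`. -/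
theorem tateMap_some (hq : ‖(q : K)‖ < 1) {u : Kˣ} (hu : InAnn (q : K) u) (hu1 : u ≠ 1) :
    tateMap hq u = .some _ _ (tate_nonsingular hq hu hu1) := by
  rw [tateMap_of_inAnn hq hu, annPoint_of_ne hq hu hu1]

end Fermat.Agent.Tate
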